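import Mathlib.FieldTheory.Galois.Basic
import Mathlib.FieldTheory.IsAlgClosed.AlgebraicClosure
import Mathlib.Algebra.Algebra.Rat

/-!
# Instances for `AlgebraicClosure ℚ` with its `DivisionRing.toRatAlgebra` algebra structure

In the frozen statements the algebra structure of `AlgebraicClosure ℚ` over `ℚ` is
`DivisionRing.toRatAlgebra`, for which type class search does not find the instances
`IsAlgClosure`, `IsGalois`.
-/

set_option autoImplicit false

namespace Fermat.Agent.Places

instance instIsAlgClosureRat : IsAlgClosure ℚ (AlgebraicClosure ℚ) :=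
  AlgebraicClosure.instIsAlgClosure ℚ

instance instIsGaloisRat : IsGalois ℚ (AlgebraicClosure ℚ) := inferInstance

instance instIsAlgebraicRat : Algebra.IsAlgebraic ℚ (AlgebraicClosure ℚ) :=
  (instIsAlgClosureRat).isAlgebraic

end Fermat.Agent.Places
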