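import Mathlib.RingTheory.Valuation.ValuationSubring
import Mathlib.RingTheory.Valuation.LocalSubring
import Mathlib.RingTheory.Polynomial.IntegralNormalization
import Mathlib.RingTheory.IntegralClosure.IntegrallyClosed
import Mathlib.RingTheory.Int.Basic
import Mathlib.NumberTheory.NumberField.Basic
import Fermat.Prelude.Def_FLTPrelim_Ramification
import Fermat.Prelude.Def_EllipticCurve_FrobeniusTrace

/-!
# Places of an algebraic extension of `ℚ`

For a valuation subring `A` of a field `L` algebraic over `ℚ`, every element of `A` is a fraction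
`b / s` with `b, s` algebraic integers and `s` a unit in `A`.
-/

set_option autoImplicit false

namespace Fermat.Agent.Places

open Polynomial

section General

variable {L : Type*} [Field L]

theorem mem_of_isIntegral_int (A : ValuationSubring L) {x : L} (hx : IsIntegral ℤ x) : x ∈ A := by
  have h : IsIntegral A x := hx.tower_top
  obtain ⟨y, hy⟩ := IsIntegrallyClosed.isIntegral_iff.mp h
  rw [← hy]
  exact y.2

theorem mem_nonunits_iff (A : ValuationSubring L) (x : L) :
    x ∈ A.nonunits ↔ A.valuation x < 1 := Iff.rfl

theorem mem_of_mem_nonunits (A : ValuationSubring L) {x : L} (hx : x ∈ A.nonunits) : x ∈ A :=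
  (A.valuation_le_one_iff x).mp (le_of_lt ((mem_nonunits_iff A x).1 hx))

theorem mul_mem_nonunits (A : ValuationSubring L) {x y : L} (hx : x ∈ A.nonunits) (hy : y ∈ A) :
    x * y ∈ A.nonunits := by
  rw [mem_nonunits_iff] at hx ⊢
  rw [map_mul]
  exact mul_lt_one_of_lt_of_le hx ((A.valuation_le_one_iff y).mpr hy)

theorem add_mem_nonunits (A : ValuationSubring L) {x y : L} (hx : x ∈ A.nonunits)
    (hy : y ∈ A.nonunits) : x + y ∈ A.nonunits := by
  rw [mem_nonunits_iff] at hx hy ⊢
  exact lt_of_le_of_lt (A.valuation.map_add x y) (max_lt hx hy)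

theorem neg_mem_nonunits (A : ValuationSubring L) {x : L} (hx : x ∈ A.nonunits) :
    -x ∈ A.nonunits := by
  rw [mem_nonunits_iff] at hx ⊢
  rwa [Valuation.map_neg]

theorem sub_mem_nonunits (A : ValuationSubring L) {x y : L} (hx : x ∈ A.nonunits)
    (hy : y ∈ A.nonunits) : x - y ∈ A.nonunits := by
  rw [sub_eq_add_neg]
  exact add_mem_nonunits A hx (neg_mem_nonunits A hy)

theorem zero_mem_nonunits (A : ValuationSubring L) : (0 : L) ∈ A.nonunits := by
  rw [mem_nonunits_iff]; simp

theorem one_notMem_nonunits (A : ValuationSubring L) : (1 : L) ∉ A.nonunits := by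
  rw [mem_nonunits_iff]; simp

/-- If `x ∈ A` is a root of `f`, whose coefficients are algebraic integers and not all
non-units in `A`, then `x` is a quotient `b / s` of algebraic integers with `s` a unit of `A`. -/
theorem exists_integral_mul_of_aeval_eq_zero (A : ValuationSubring L) {x : L} (hxA : x ∈ A) :
    ∀ (n : ℕ) (f : (integralClosure ℤ L)[X]), f.natDegree ≤ n → aeval x f = 0 →
      (∃ i, ((f.coeff i : integralClosure ℤ L) : L) ∉ A.nonunits) →
      ∃ s : L, IsIntegral ℤ s ∧ s ∉ A.nonunits ∧ IsIntegral ℤ (x * s) := by
  intro n
  induction n with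
  | zero =>
    intro f hf h0 ⟨i, hi⟩
    exfalso
    rw [Polynomial.eq_C_of_natDegree_le_zero hf] at h0 hi
    rw [aeval_C] at h0
    have h1 : (f.coeff 0 : integralClosure ℤ L) = 0 := Subtype.ext h0
    rw [h1] at hi
    apply hi
    simp
  | succ n ih =>
    intro f hf h0 hi
    -- `c x` is integral
    have hcx : IsIntegral ℤ (((f.coeff (n+1) : integralClosure ℤ L) : L) * x) := by
      rcases Nat.lt_or_ge f.natDegree (n+1) with hlt | hge
      · rw [Polynomial.coeff_eq_zero_of_natDegree_lt hlt]
        simpa using isIntegral_zero
      · have hdeg : f.natDegree = n + 1 := le_antisymm hf hge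
        have h1 : IsIntegral (integralClosure ℤ L) (f.leadingCoeff • x) :=
          isIntegral_leadingCoeff_smul f x h0
        rw [Polynomial.leadingCoeff, hdeg] at h1
        have h2 := isIntegral_trans (R := ℤ) (A := integralClosure ℤ L) _ h1
        simpa [Algebra.smul_def] using h2
    by_cases hc : ((f.coeff (n+1) : integralClosure ℤ L) : L) ∈ A.nonunits
    · -- replace the leading term
      set c := f.coeff (n+1) with hcdef
      let d : integralClosure ℤ L := ⟨(c : L) * x, hcx⟩
      let g : (integralClosure ℤ L)[X] := f - C c * X ^ (n+1) + C d * X ^ n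
      have hcoeff : ∀ i, g.coeff i = f.coeff i - (if i = n+1 then c else 0) + (if i = n then d else 0) := by
        intro i
        simp only [g, coeff_add, coeff_sub, coeff_C_mul, coeff_X_pow]
        simp
      have hgdeg : g.natDegree ≤ n := by
        rw [Polynomial.natDegree_le_iff_coeff_eq_zero]
        intro i hi'
        rw [hcoeff]
        by_cases h : i = n + 1
        · subst h
          simp [c]
        · rw [Polynomial.coeff_eq_zero_of_natDegree_lt (by omega : f.natDegree < i)]
          simp [h, show i ≠ n by omega]
      have hg0 : aeval x g = 0 := by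
        simp only [g, map_add, map_sub, map_mul, map_pow, aeval_X, aeval_C, h0]
        have : (algebraMap (integralClosure ℤ L) L) d = (algebraMap (integralClosure ℤ L) L c) * x := rfl
        rw [this]
        ring
      refine ih g hgdeg hg0 ?_
      obtain ⟨i, hi⟩ := hi
      have hin : i ≠ n + 1 := fun h => by subst h; exact hi hc
      refine ⟨i, ?_⟩
      rw [hcoeff]
      by_cases h : i = n
      · subst h
        simp only [hin, if_false, sub_zero, if_true]
        intro hmem
        apply hi
        have hd : ((d : integralClosure ℤ L) : L) ∈ A.nonunits := mul_mem_nonunits A hc hxA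
        have := sub_mem_nonunits A hmem hd
        simpa using this
      · simpa [hin, h] using hi
    · exact ⟨f.coeff (n+1), (f.coeff (n+1)).2, hc, by rw [mul_comm]; exact hcx⟩

/-- The ideal of integers which are non-units in `A`. -/
def intCenter (A : ValuationSubring L) : Ideal ℤ where
  carrier := {n | (n : L) ∈ A.nonunits}
  add_mem' {a b} ha hb := by
    simp only [Set.mem_ofPred_eq] at *
    push_cast
    exact add_mem_nonunits A ha hb
  zero_mem' := by simp
  smul_mem' c x hx := by
    simp only [Set.mem_ofPred_eq, smul_eq_mul] at *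
    push_cast
    rw [mul_comm]
    exact mul_mem_nonunits A hx (mem_of_isIntegral_int A (by simpa using isIntegral_algebraMap (R := ℤ) (A := L) (x := c)))

theorem mem_intCenter (A : ValuationSubring L) (n : ℤ) : n ∈ intCenter A ↔ (n : L) ∈ A.nonunits := Iff.rfl

theorem one_notMem_intCenter (A : ValuationSubring L) : (1 : ℤ) ∉ intCenter A := by
  rw [mem_intCenter]; simpa using one_notMem_nonunits A

/-- Every element of a valuation subring `A` of an algebraic extension of `ℚ` is of the form
`b / s` with `b`, `s` algebraic integers and `s` a unit of `A`. -/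
theorem exists_integral_mul [CharZero L] (A : ValuationSubring L) {x : L} (hx : IsAlgebraic ℤ x) (hxA : x ∈ A) :
    ∃ s : L, IsIntegral ℤ s ∧ s ∉ A.nonunits ∧ IsIntegral ℤ (x * s) := by
  obtain ⟨p, hp0, hp⟩ := hx
  have hp' : aeval x p.primPart = 0 := Polynomial.aeval_primPart_eq_zero hp0 hp
  refine exists_integral_mul_of_aeval_eq_zero A hxA _
    (p.primPart.map (algebraMap ℤ (integralClosure ℤ L))) le_rfl ?_ ?_
  · rwa [aeval_map_algebraMap]
  · by_contra hcon
    push Not at hcon
    have hcon' : ∀ i, p.primPart.coeff i ∈ intCenter A := by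
      intro i
      have := hcon i
      rw [coeff_map] at this
      rw [mem_intCenter]
      simpa using this
    obtain ⟨g, hg⟩ : (intCenter A).IsPrincipal := inferInstance
    have hdvd : C g ∣ p.primPart := by
      rw [Polynomial.C_dvd_iff_dvd_coeff]
      intro i
      have := hcon' i
      rw [hg] at this
      exact Ideal.mem_span_singleton.mp this
    have hunit : IsUnit g := p.isPrimitive_primPart g hdvd
    apply one_notMem_intCenter A
    rw [hg]
    exact Ideal.mem_span_singleton.mpr (hunit.dvd)

end General

end Fermat.Agent.Places
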