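import Mathlib.RingTheory.Invariant.Profinite
import Mathlib.FieldTheory.Galois.Profinite
import Mathlib.FieldTheory.Finite.Basic
import Mathlib.FieldTheory.KrullTopology
import Fermat.Agent.Places.Basic

/-!
# The center of a place on the ring of algebraic integers
-/

set_option autoImplicit false

namespace Fermat.Agent.Places

open scoped Pointwise

variable {L : Type*} [Field L]

/-- The center of a valuation subring on the ring of algebraic integers. -/
def center (A : ValuationSubring L) : Ideal (integralClosure ℤ L) where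
  carrier := {z | (z : L) ∈ A.nonunits}
  add_mem' {a b} ha hb := by
    simp only [Set.mem_ofPred_eq] at *
    push_cast
    exact add_mem_nonunits A ha hb
  zero_mem' := by simp
  smul_mem' c x hx := by
    simp only [Set.mem_ofPred_eq, smul_eq_mul] at *
    push_cast
    rw [mul_comm]
    exact mul_mem_nonunits A hx (mem_of_isIntegral_int A c.2)

theorem mem_center (A : ValuationSubring L) (z : integralClosure ℤ L) :
    z ∈ center A ↔ (z : L) ∈ A.nonunits := Iff.rfl

theorem mem_nonunits_of_pow_mem (A : ValuationSubring L) {x : L} {n : ℕ} (h : x ^ n ∈ A.nonunits) :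
    x ∈ A.nonunits := by
  rw [mem_nonunits_iff, map_pow] at h
  rw [mem_nonunits_iff]
  by_contra hcon
  exact absurd h (not_lt.mpr (one_le_pow₀ (not_lt.mp hcon)))

theorem mem_nonunits_or_of_mul (A : ValuationSubring L) {x y : L} (hx : x ∈ A) (hy : y ∈ A)
    (h : x * y ∈ A.nonunits) : x ∈ A.nonunits ∨ y ∈ A.nonunits := by
  rw [mem_nonunits_iff, map_mul] at h
  rw [mem_nonunits_iff, mem_nonunits_iff]
  by_contra hcon
  push Not at hcon
  have h1 : A.valuation x = 1 := le_antisymm ((A.valuation_le_one_iff x).mpr hx) hcon.1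
  have h2 : A.valuation y = 1 := le_antisymm ((A.valuation_le_one_iff y).mpr hy) hcon.2
  rw [h1, h2] at h
  simp at h

instance center_isPrime (A : ValuationSubring L) : (center A).IsPrime where
  ne_top' := by
    intro h
    have : (1 : integralClosure ℤ L) ∈ center A := h ▸ Submodule.mem_top
    rw [mem_center] at this
    exact one_notMem_nonunits A this
  mem_or_mem' {x y} h := mem_nonunits_or_of_mul A (mem_of_isIntegral_int A x.2)
    (mem_of_isIntegral_int A y.2) h

/-- A unit quotient representation gives membership. -/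
theorem mem_of_mul_mem {A : ValuationSubring L} {x s : L} (hs : s ∉ A.nonunits)
    (hb : x * s ∈ A) : x ∈ A := by
  rw [← A.valuation_le_one_iff] at hb ⊢
  rw [map_mul] at hb
  rw [mem_nonunits_iff, not_lt] at hs
  by_contra hcon
  push Not at hcon
  have : 1 < A.valuation x * A.valuation s := one_lt_mul_of_lt_of_le' hcon hs
  exact absurd hb (not_le.mpr this)

theorem mem_nonunits_of_mul_mem_nonunits {A : ValuationSubring L} {x s : L} (hs : s ∉ A.nonunits)
    (hb : x * s ∈ A.nonunits) : x ∈ A.nonunits := by
  rw [mem_nonunits_iff] at hb ⊢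
  rw [map_mul] at hb
  rw [mem_nonunits_iff, not_lt] at hs
  by_contra hcon
  push Not at hcon
  have : 1 ≤ A.valuation x * A.valuation s := one_le_mul hcon hs
  exact absurd hb (not_lt.mpr this)

theorem le_of_center_le [CharZero L] [Algebra ℚ L] [Algebra.IsAlgebraic ℚ L] {A A' : ValuationSubring L}
    (h : center A' ≤ center A) : A ≤ A' := by
  intro x hx
  have hxalg : IsAlgebraic ℤ x :=
    (IsFractionRing.isAlgebraic_iff ℤ ℚ L).mpr (Algebra.IsAlgebraic.isAlgebraic x)
  obtain ⟨s, hs, hsu, hb⟩ := exists_integral_mul A hxalg hx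
  have hsu' : s ∉ A'.nonunits := fun hs' => hsu (h (show (⟨s, hs⟩ : integralClosure ℤ L) ∈ center A' from hs'))
  exact mem_of_mul_mem hsu' (mem_of_isIntegral_int A' hb)

theorem eq_of_center_eq [CharZero L] [Algebra ℚ L] [Algebra.IsAlgebraic ℚ L] {A A' : ValuationSubring L}
    (h : center A = center A') : A = A' :=
  le_antisymm (le_of_center_le h.ge) (le_of_center_le h.le)

section Action

variable {G : Type*} [Group G] [MulSemiringAction G L]

theorem mem_smul_iff (σ : G) (A : ValuationSubring L) (x : L) : x ∈ σ • A ↔ σ⁻¹ • x ∈ A := by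
  constructor
  · rintro ⟨y, hy, rfl⟩
    simpa using hy
  · intro h
    exact ⟨σ⁻¹ • x, h, by simp⟩

theorem mem_nonunits_iff_inv (A : ValuationSubring L) (x : L) :
    x ∈ A.nonunits ↔ x = 0 ∨ x⁻¹ ∉ A := by
  rw [mem_nonunits_iff, ← A.valuation_le_one_iff]
  by_cases hx : x = 0
  · simp [hx]
  · have hv : A.valuation x ≠ 0 := (Valuation.ne_zero_iff _).mpr hx
    rw [map_inv₀]
    simp only [hx, false_or, not_le]
    exact (one_lt_inv₀ (zero_lt_iff.mpr hv)).symm

theorem mem_nonunits_smul_iff (σ : G) (A : ValuationSubring L) (x : L) :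
    x ∈ (σ • A).nonunits ↔ σ⁻¹ • x ∈ A.nonunits := by
  rw [mem_nonunits_iff_inv, mem_nonunits_iff_inv, mem_smul_iff, smul_inv'',
    smul_eq_zero_iff_eq]

theorem center_smul (σ : G) (A : ValuationSubring L) : center (σ • A) = σ • center A := by
  ext z
  rw [mem_center, mem_nonunits_smul_iff, Ideal.mem_pointwise_smul_iff_inv_smul_mem, mem_center]
  rfl

end Action

section Frobenius

variable [CharZero L] [Algebra ℚ L] [Algebra.IsAlgebraic ℚ L]

theorem isAlgebraic_int (x : L) : IsAlgebraic ℤ x :=
    (IsFractionRing.isAlgebraic_iff ℤ ℚ L).mpr (Algebra.IsAlgebraic.isAlgebraic x)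

end Frobenius

end Fermat.Agent.Places
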