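import Mathlib.FieldTheory.Galois.Infinite
import Fermat.Agent.Places.Center

/-!
# Existence of Frobenius elements
-/

set_option autoImplicit false
set_option linter.style.haveILetI false
set_option linter.unusedSectionVars false

namespace Fermat.Agent.Places

open scoped Pointwise

variable {L : Type*} [Field L] [Algebra ℚ L]

/-- An integral version of being a Frobenius element: it suffices to check on algebraic integers. -/
theorem isFrobeniusAt_of_forall_sub_pow [CharZero L] [Algebra.IsAlgebraic ℚ L]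
    (A : ValuationSubring L) (σ : L ≃ₐ[ℚ] L) (q : ℕ) (hq : q ≠ 0)
    (h : ∀ z : L, IsIntegral ℤ z → σ z - z ^ q ∈ A.nonunits) : A.IsFrobeniusAt σ q := by
  have hint : ∀ z : L, IsIntegral ℤ z → IsIntegral ℤ (σ z) := fun z hz => hz.map σ
  -- `σ` preserves units and nonunits among the integers
  have hnon : ∀ z : L, IsIntegral ℤ z → (σ z ∈ A.nonunits ↔ z ∈ A.nonunits) := by
    intro z hz
    constructor
    · intro hσ
      have := sub_mem_nonunits A hσ (h z hz)
      rw [sub_sub_cancel] at this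
      exact mem_nonunits_of_pow_mem A this
    · intro hz'
      have h1 : z ^ q ∈ A.nonunits := by
        obtain ⟨m, rfl⟩ := Nat.exists_eq_succ_of_ne_zero hq
        rw [pow_succ']
        exact mul_mem_nonunits A hz' (pow_mem (mem_of_mem_nonunits A hz') m)
      have := add_mem_nonunits A (h z hz) h1
      rwa [sub_add_cancel] at this
  have key1 : ∀ x ∈ A, σ x ∈ A := by
    intro x hx
    obtain ⟨s, hs, hsu, hb⟩ := exists_integral_mul A (isAlgebraic_int x) hx
    have h1 : σ s ∉ A.nonunits := fun h' => hsu ((hnon s hs).1 h')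
    refine mem_of_mul_mem h1 ?_
    rw [← map_mul]
    exact mem_of_isIntegral_int A (hint _ hb)
  have key2 : ∀ x ∈ A.nonunits, σ x ∈ A.nonunits := by
    intro x hx
    obtain ⟨s, hs, hsu, hb⟩ := exists_integral_mul A (isAlgebraic_int x) (mem_of_mem_nonunits A hx)
    have h1 : σ s ∉ A.nonunits := fun h' => hsu ((hnon s hs).1 h')
    refine mem_nonunits_of_mul_mem_nonunits h1 ?_
    rw [← map_mul, hnon _ hb]
    exact mul_mem_nonunits A hx (mem_of_isIntegral_int A hs)
  have key3 : ∀ x, σ x ∈ A → x ∈ A := by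
    intro x hx
    by_contra hcon
    have hx0 : x ≠ 0 := by rintro rfl; exact hcon (zero_mem A)
    have h1 : x⁻¹ ∈ A.nonunits := by
      rw [mem_nonunits_iff_inv]
      right; rwa [inv_inv]
    have h2 := key2 _ h1
    rw [map_inv₀, mem_nonunits_iff_inv, inv_inv] at h2
    rcases h2 with h2 | h2
    · rw [inv_eq_zero] at h2
      exact hx0 ((map_eq_zero σ).1 h2)
    · exact h2 hx
  have hmem : σ ∈ A.decompositionSubgroup ℚ := by
    change σ • A = A
    ext x
    rw [mem_smul_iff]
    constructor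
    · intro hx
      have := key1 _ hx
      have e : σ (σ⁻¹ • x) = x := by
        change σ • (σ⁻¹ • x) = x
        simp
      rwa [e] at this
    · intro hx
      apply key3
      have e : σ (σ⁻¹ • x) = x := by
        change σ • (σ⁻¹ • x) = x
        simp
      rwa [e]
  refine ⟨hmem, ?_⟩
  intro x
  obtain ⟨x, rfl⟩ := IsLocalRing.residue_surjective x
  obtain ⟨s, hs, hsu, hb⟩ := exists_integral_mul A (isAlgebraic_int (x : L)) x.2
  rw [← IsLocalRing.ResidueField.residue_smul, ← map_pow, ← sub_eq_zero, ← map_sub,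
    IsLocalRing.residue_eq_zero_iff, ← ValuationSubring.coe_mem_nonunits_iff]
  change σ (x : L) - (x : L) ^ q ∈ A.nonunits
  have h1 : σ s ∉ A.nonunits := fun h' => hsu ((hnon s hs).1 h')
  refine mem_nonunits_of_mul_mem_nonunits h1 ?_
  have e : (σ (x : L) - (x : L) ^ q) * σ s =
      (σ ((x : L) * s) - ((x : L) * s) ^ q) - (σ s - s ^ q) * (x : L) ^ q := by
    rw [map_mul, mul_pow]; ring
  rw [e]
  exact sub_mem_nonunits A (h _ hb) (mul_mem_nonunits A (h _ hs) (pow_mem x.2 q))

/-- The center of a place over `q` lies over `(q)`. -/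
theorem under_center (A : ValuationSubring L) {q : ℕ} (hq : q.Prime) (hA : A.LiesOverPrime q) :
    (center A).under ℤ = Ideal.span {(q : ℤ)} := by
  have hmax : (Ideal.span {(q : ℤ)}).IsMaximal :=
    (PrincipalIdealRing.isMaximal_of_irreducible (Nat.prime_iff_prime_int.mp hq).irreducible)
  have hle : Ideal.span {(q : ℤ)} ≤ (center A).under ℤ := by
    rw [Ideal.span_singleton_le_iff_mem, Ideal.mem_comap, mem_center]
    have : ((algebraMap ℤ (integralClosure ℤ L) (q : ℤ) : integralClosure ℤ L) : L) = (q : L) := by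
      simp
    rw [this]
    exact hA
  exact (hmax.eq_of_le (Ideal.IsPrime.ne_top inferInstance) hle).symm

theorem isInvariant_int [IsGalois ℚ L] [CharZero L] :
    Algebra.IsInvariant ℤ (integralClosure ℤ L) (L ≃ₐ[ℚ] L) where
  isInvariant b hb := by
    have h1 : (b : L) ∈ Set.range (algebraMap ℚ L) := by
      rw [InfiniteGalois.mem_range_algebraMap_iff_fixed]
      intro σ
      exact congrArg Subtype.val (hb σ)
    obtain ⟨r, hr⟩ := h1
    have h2 : IsIntegral ℤ (algebraMap ℚ L r) := hr ▸ b.2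
    have h3 : IsIntegral ℤ r := (isIntegral_algebraMap_iff (algebraMap ℚ L).injective).mp h2
    obtain ⟨n, hn⟩ := IsIntegrallyClosed.isIntegral_iff.mp h3
    refine ⟨n, Subtype.ext ?_⟩
    rw [← hr, ← hn]
    simp

theorem continuousSMul_integralClosure [Algebra.IsAlgebraic ℚ L]
    [TopologicalSpace (integralClosure ℤ L)] [DiscreteTopology (integralClosure ℤ L)] :
    ContinuousSMul (L ≃ₐ[ℚ] L) (integralClosure ℤ L) := by
  rw [continuousSMul_iff_stabilizer_isOpen]
  intro x
  have h : (MulAction.stabilizer (L ≃ₐ[ℚ] L) x : Set (L ≃ₐ[ℚ] L)) =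
      (MulAction.stabilizer (L ≃ₐ[ℚ] L) (x : L) : Set (L ≃ₐ[ℚ] L)) := by
    ext σ
    simp only [SetLike.mem_coe, MulAction.mem_stabilizer_iff]
    exact Subtype.ext_iff
  rw [h]
  exact stabilizer_isOpen_of_isIntegral (x : L)

/-- Existence of Frobenius elements. -/
theorem exists_isFrobeniusAt [IsGalois ℚ L] [CharZero L] (A : ValuationSubring L) {q : ℕ} (hq : q.Prime)
    (hA : A.LiesOverPrime q) : ∃ σ : L ≃ₐ[ℚ] L, A.IsFrobeniusAt σ q := by
  classical
  let B := integralClosure ℤ L
  let Q : Ideal B := center A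
  let P : Ideal ℤ := Ideal.span {(q : ℤ)}
  letI : TopologicalSpace B := ⊥
  haveI : DiscreteTopology B := ⟨rfl⟩
  haveI hQP : Q.LiesOver P := ⟨(under_center A hq hA).symm⟩
  haveI : ContinuousSMul (L ≃ₐ[ℚ] L) B := continuousSMul_integralClosure
  haveI : Algebra.IsInvariant ℤ B (L ≃ₐ[ℚ] L) := isInvariant_int
  have hsurj := Ideal.Quotient.stabilizerHom_surjective_of_profinite (G := L ≃ₐ[ℚ] L) P Q
  haveI hP : P.IsMaximal :=
    (PrincipalIdealRing.isMaximal_of_irreducible (Nat.prime_iff_prime_int.mp hq).irreducible)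
  haveI : Algebra.IsIntegral ℤ B := integralClosure.AlgebraIsIntegral
  haveI hQ : Q.IsMaximal := Ideal.isMaximal_of_isIntegral_of_isMaximal_comap Q
    (by rw [show Ideal.comap (algebraMap ℤ B) Q = P from (under_center A hq hA)]; exact hP)
  letI : Field (ℤ ⧸ P) := Ideal.Quotient.field P
  letI : Field (B ⧸ Q) := Ideal.Quotient.field Q
  haveI : Fact q.Prime := ⟨hq⟩
  let e : (ℤ ⧸ P) ≃+* ZMod q := Int.quotientSpanNatEquivZMod q
  letI : Fintype (ℤ ⧸ P) := Fintype.ofEquiv _ e.toEquiv.symm
  have hcard : Fintype.card (ℤ ⧸ P) = q := by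
    rw [Fintype.card_congr e.toEquiv, ZMod.card]
  haveI : Algebra.IsAlgebraic (ℤ ⧸ P) (B ⧸ Q) := Algebra.IsIntegral.isAlgebraic
  obtain ⟨σ, hσ⟩ := hsurj (FiniteField.frobeniusAlgEquivOfAlgebraic (ℤ ⧸ P) (B ⧸ Q))
  refine ⟨σ.1, isFrobeniusAt_of_forall_sub_pow A σ.1 q hq.ne_zero ?_⟩
  intro z hz
  let z' : B := ⟨z, hz⟩
  have h1 : Ideal.Quotient.mk Q (σ.1 • z') = (Ideal.Quotient.mk Q z') ^ q := by
    have := congrArg (fun f : (B ⧸ Q) ≃ₐ[ℤ ⧸ P] (B ⧸ Q) => f (Ideal.Quotient.mk Q z')) hσ
    simp only [FiniteField.coe_frobeniusAlgEquivOfAlgebraic, hcard] at this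
    exact this
  rw [← map_pow, Ideal.Quotient.eq] at h1
  exact h1

end Fermat.Agent.Places
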