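import Fermat.Agent.Places.Instances
import Fermat.Agent.Places.Frobenius

/-!
# Existence and conjugacy of places over a prime
-/

set_option autoImplicit false
set_option linter.style.haveILetI false
set_option linter.unusedSectionVars false

namespace Fermat.Agent.Places

open scoped Pointwise

/-- There is a place over every prime number. -/
theorem exists_liesOverPrime (L : Type*) [Field L] [CharZero L] {q : ℕ} (hq : q.Prime) :
    ∃ A : ValuationSubring L, A.LiesOverPrime q := by
  let R : Subring L := ⊥
  let I : Ideal R := Ideal.span {(q : R)}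
  have hI : I ≠ ⊤ := by
    intro h
    have h1 : (1 : R) ∈ I := h ▸ Submodule.mem_top
    obtain ⟨a, ha⟩ := Ideal.mem_span_singleton.mp h1
    obtain ⟨n, hn⟩ : ∃ n : ℤ, (n : L) = (a : L) := by
      have := a.2
      rw [Subring.mem_bot] at this
      exact this
    have h2 : (1 : L) = (q : L) * (a : L) := by
      have := congrArg (fun x : R => (x : L)) ha
      simpa using this
    rw [← hn] at h2
    have h3 : (1 : ℤ) = (q : ℤ) * n := by exact_mod_cast h2
    have h4 : (q : ℤ) ∣ 1 := ⟨n, h3⟩
    exact (Nat.prime_iff_prime_int.mp hq).not_isUnit (isUnit_of_dvd_one h4)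
  obtain ⟨B, -, hB⟩ := Ideal.image_subset_nonunits_valuationSubring I hI
  refine ⟨B, ?_⟩
  have : ((q : R) : L) ∈ B.nonunits := hB ⟨(q : R), Ideal.subset_span rfl, rfl⟩
  simpa [ValuationSubring.LiesOverPrime] using this

variable {L : Type*} [Field L]

/-- Every maximal ideal of the ring of algebraic integers is the center of a place. -/
theorem exists_center_eq (Q : Ideal (integralClosure ℤ L)) [hQ : Q.IsMaximal] :
    ∃ A : ValuationSubring L, center A = Q := by
  obtain ⟨B, hBle, hB⟩ := Ideal.image_subset_nonunits_valuationSubring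
    (A := (integralClosure ℤ L).toSubring) Q hQ.ne_top
  refine ⟨B, (hQ.eq_of_le (Ideal.IsPrime.ne_top inferInstance) ?_).symm⟩
  intro z hz
  rw [mem_center]
  exact hB ⟨z, hz, rfl⟩

variable [CharZero L] [Algebra ℚ L] [IsGalois ℚ L]

/-- Places over the same prime number are conjugate. -/
theorem exists_smul_eq_of_liesOverPrime {q : ℕ} (hq : q.Prime) (A A' : ValuationSubring L)
    (hA : A.LiesOverPrime q) (hA' : A'.LiesOverPrime q) : ∃ σ : L ≃ₐ[ℚ] L, σ • A = A' := by
  letI : TopologicalSpace (integralClosure ℤ L) := ⊥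
  haveI : DiscreteTopology (integralClosure ℤ L) := ⟨rfl⟩
  haveI : ContinuousSMul (L ≃ₐ[ℚ] L) (integralClosure ℤ L) := continuousSMul_integralClosure
  haveI : Algebra.IsInvariant ℤ (integralClosure ℤ L) (L ≃ₐ[ℚ] L) := isInvariant_int
  obtain ⟨σ, hσ⟩ := Algebra.IsInvariant.exists_smul_of_under_eq_of_profinite (A := ℤ)
    (G := L ≃ₐ[ℚ] L) (center A) (center A') (by rw [under_center A hq hA, under_center A' hq hA'])
  exact ⟨σ, eq_of_center_eq (by rw [center_smul, hσ])⟩

end Fermat.Agent.Places
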