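import Fermat.Agent.Places.Minkowski

/-!
# Lifting inertia elements to `ℚ̄`; Minkowski's theorem for places of `ℚ̄`.
-/

set_option autoImplicit false
set_option linter.unusedSectionVars false
set_option linter.style.haveILetI false

namespace Fermat.Agent.Places

open NumberField Ideal Fermat.Agent.Cheb
open scoped Pointwise

theorem eq_top_of_inertia_le_finite' {K : Type*} [Field K] [CharZero K] [inst : Algebra ℚ K]
    [FiniteDimensional ℚ K] [IsGalois ℚ K] (H : Subgroup (K ≃ₐ[ℚ] K))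
    (hH : ∀ P : Ideal (𝓞 K), P.IsPrime → P ≠ ⊥ → ∀ σ : K ≃ₐ[ℚ] K,
      (∀ x : 𝓞 K, σ • x - x ∈ P) → σ ∈ H) : H = ⊤ := by
  obtain rfl : inst = DivisionRing.toRatAlgebra := Subsingleton.elim _ _
  haveI : NumberField K := ⟨⟩
  exact eq_top_of_inertia_le_finite H fun P hP hP0 σ hσ => hH P hP hP0 σ hσ

attribute [-instance] DivisionRing.toRatAlgebra

variable {L : Type*} [Field L] [CharZero L] [inst : Algebra ℚ L]

/-- It suffices to check inertia on algebraic integers. -/
theorem mem_inertia_of_forall_sub [Algebra.IsAlgebraic ℚ L] (A : ValuationSubring L)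
    (σ : L ≃ₐ[ℚ] L) (h : ∀ z : L, IsIntegral ℤ z → σ z - z ∈ A.nonunits) :
    σ ∈ A.inertiaSubgroupIn ℚ := by
  have h1 := isFrobeniusAt_of_forall_sub_pow A σ 1 one_ne_zero (by simpa using h)
  obtain ⟨hmem, hres⟩ := h1
  refine Subgroup.mem_map.mpr ⟨⟨σ, hmem⟩, ?_, rfl⟩
  change _ ∈ MonoidHom.ker _
  rw [MonoidHom.mem_ker]
  ext x
  have := hres x
  rw [pow_one] at this
  exact this

section

variable (E : IntermediateField ℚ L)

theorem isIntegral_coe (x : 𝓞 E) : IsIntegral ℤ ((x : E) : L) :=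
  (RingOfIntegers.isIntegral_coe x).map (algebraMap E L).toIntAlgHom

/-- The inclusion of rings of integers. -/
def inclInt : 𝓞 E →+* integralClosure ℤ L where
  toFun := fun x => ⟨((x : E) : L), isIntegral_coe E x⟩
  map_one' := by ext; simp
  map_mul' := fun x y => by ext; simp
  map_zero' := by ext; simp
  map_add' := fun x y => by ext; simp

theorem inclInt_coe (x : 𝓞 E) : ((inclInt E x : integralClosure ℤ L) : L) = ((x : E) : L) := rfl

theorem inclInt_injective : Function.Injective (inclInt E) := fun x y hxy => by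
  have : ((x : E) : L) = ((y : E) : L) :=
    congrArg (fun z : integralClosure ℤ L => (z : L)) hxy
  exact RingOfIntegers.ext (by exact_mod_cast this)

variable [IsGalois ℚ L]

theorem isInvariant_intermediate :
    letI := (inclInt E).toAlgebra
    Algebra.IsInvariant (𝓞 E) (integralClosure ℤ L) (L ≃ₐ[E] L) := by
  letI := (inclInt E).toAlgebra
  refine ⟨fun b hb => ?_⟩
  have h1 : (b : L) ∈ Set.range (algebraMap E L) := by
    rw [InfiniteGalois.mem_range_algebraMap_iff_fixed]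
    intro σ
    exact congrArg Subtype.val (hb σ)
  obtain ⟨r, hr⟩ := h1
  have h2 : IsIntegral ℤ (algebraMap E L r) := hr ▸ b.2
  have h3 : IsIntegral ℤ r := (isIntegral_algebraMap_iff (algebraMap E L).injective).mp h2
  exact ⟨⟨r, h3⟩, Subtype.ext hr⟩

theorem continuousSMul_intermediate
    [TopologicalSpace (integralClosure ℤ L)] [DiscreteTopology (integralClosure ℤ L)] :
    ContinuousSMul (L ≃ₐ[E] L) (integralClosure ℤ L) := by
  rw [continuousSMul_iff_stabilizer_isOpen]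
  intro x
  have h : (MulAction.stabilizer (L ≃ₐ[E] L) x : Set (L ≃ₐ[E] L)) =
      (MulAction.stabilizer (L ≃ₐ[E] L) (x : L) : Set (L ≃ₐ[E] L)) := by
    ext σ
    simp only [SetLike.mem_coe, MulAction.mem_stabilizer_iff]
    exact Subtype.ext_iff
  rw [h]
  exact stabilizer_isOpen_of_isIntegral (x : L)

theorem mem_center_inclInt (E : IntermediateField ℚ L) (A : ValuationSubring L) (x : 𝓞 E) :
    inclInt E x ∈ center A ↔ ((x : E) : L) ∈ A.nonunits := Iff.rfl

/-- Lifting inertia elements. -/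
theorem exists_inertia_lift [Normal ℚ E] (P : Ideal (𝓞 E)) [hP : P.IsMaximal]
    (σ : E ≃ₐ[ℚ] E) (hσ : ∀ x : 𝓞 E, σ • x - x ∈ P) {p : ℕ} (hp : (p : 𝓞 E) ∈ P) :
    ∃ A : ValuationSubring L, A.LiesOverPrime p ∧
      ∃ τ ∈ A.inertiaSubgroupIn ℚ, AlgEquiv.restrictNormal τ E = σ := by
  letI algB : Algebra (𝓞 E) (integralClosure ℤ L) := (inclInt E).toAlgebra
  haveI : Algebra.IsIntegral (𝓞 E) (integralClosure ℤ L) := ⟨fun x => by
    haveI : IsScalarTower ℤ (𝓞 E) (integralClosure ℤ L) := IsScalarTower.of_algebraMap_eq' (by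
      ext; simp)
    exact (Algebra.IsIntegral.isIntegral (R := ℤ) x).tower_top⟩
  haveI : SMulCommClass (L ≃ₐ[E] L) (𝓞 E) (integralClosure ℤ L) := ⟨fun g a b => by
    apply Subtype.ext
    change g (((a : E) : L) * (b : L)) = ((a : E) : L) * g (b : L)
    rw [map_mul]
    congr 1
    exact g.commutes (a : E)⟩
  obtain ⟨Q, -, hQprime, hQ⟩ := Ideal.exists_ideal_over_prime_of_isIntegral P
    (⊥ : Ideal (integralClosure ℤ L)) (by
      change Ideal.comap (inclInt E) ⊥ ≤ P
      rw [Ideal.comap_bot_of_injective _ (inclInt_injective E)]; exact bot_le)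
  haveI hQmax : Q.IsMaximal := Ideal.isMaximal_of_isIntegral_of_isMaximal_comap Q
    (by rw [hQ]; exact hP)
  obtain ⟨A, hA⟩ := exists_center_eq Q
  have hAp : A.LiesOverPrime p := by
    have h1 : inclInt E (p : 𝓞 E) ∈ Q := by
      rw [← hQ] at hp
      exact hp
    rw [← hA, mem_center] at h1
    have h2 : ((inclInt E (p : 𝓞 E) : integralClosure ℤ L) : L) = (p : L) := by simp
    rw [h2] at h1
    exact h1
  refine ⟨A, hAp, ?_⟩
  -- lift `σ`
  obtain ⟨τ₀, hτ₀⟩ := AlgEquiv.restrictNormalHom_surjective (F := ℚ) (K₁ := E) L σ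
  have hτ₀' : ∀ x : E, τ₀ (x : L) = ((σ x : E) : L) := fun x => by
    rw [← hτ₀]
    exact (AlgEquiv.restrictNormal_commutes τ₀ E x).symm
  have hτi : ∀ x : 𝓞 E, τ₀ • (inclInt E x) = inclInt E (σ • x) := fun x => by
    apply Subtype.ext
    exact hτ₀' (x : E)
  have hPiff : ∀ x : 𝓞 E, inclInt E x ∈ Q ↔ x ∈ P := fun x => by
    rw [← hQ]; exact Iff.rfl
  letI : TopologicalSpace (integralClosure ℤ L) := ⊥
  haveI : DiscreteTopology (integralClosure ℤ L) := ⟨rfl⟩
  haveI : ContinuousSMul (L ≃ₐ[E] L) (integralClosure ℤ L) := continuousSMul_intermediate E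
  haveI : Algebra.IsInvariant (𝓞 E) (integralClosure ℤ L) (L ≃ₐ[E] L) :=
    isInvariant_intermediate E
  haveI : (τ₀ • Q).IsPrime := inferInstance
  obtain ⟨g, hg⟩ := Algebra.IsInvariant.exists_smul_of_under_eq_of_profinite (A := 𝓞 E)
    (G := L ≃ₐ[E] L) (τ₀ • Q) Q (by
      ext x
      change inclInt E x ∈ τ₀ • Q ↔ inclInt E x ∈ Q
      rw [Ideal.mem_pointwise_smul_iff_inv_smul_mem, hPiff]
      have h1 : τ₀⁻¹ • inclInt E x = inclInt E (σ⁻¹ • x) := by
        rw [inv_smul_eq_iff, hτi, smul_inv_smul]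
      rw [h1, hPiff]
      have h2 := hσ (σ⁻¹ • x)
      rw [smul_inv_smul] at h2
      constructor
      · intro h; have := P.add_mem h2 h; rwa [sub_add_cancel] at this
      · intro h; have := P.sub_mem h h2; rwa [sub_sub_cancel] at this)
  let τ₁ : L ≃ₐ[ℚ] L := (AlgEquiv.restrictScalars ℚ g) * τ₀
  have hτ₁Q : τ₁ • Q = Q := by
    rw [mul_smul]
    exact hg.symm
  have hτ₁E : ∀ x : 𝓞 E, τ₁ • (inclInt E x) = inclInt E (σ • x) := fun x => by
    rw [mul_smul, hτi]
    apply Subtype.ext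
    exact g.commutes _
  haveI hlies : Q.LiesOver P := ⟨hQ.symm⟩
  let e : integralClosure ℤ L ≃+* integralClosure ℤ L :=
    MulSemiringAction.toRingEquiv (L ≃ₐ[ℚ] L) (integralClosure ℤ L) τ₁
  have he : Q = Q.map (e : integralClosure ℤ L →+* integralClosure ℤ L) := by
    conv_lhs => rw [← hτ₁Q]
    rfl
  let f₀ : (integralClosure ℤ L ⧸ Q) ≃+* (integralClosure ℤ L ⧸ Q) := Ideal.quotientEquiv Q Q e he
  have hf₀ : ∀ r : 𝓞 E ⧸ P, f₀ (algebraMap (𝓞 E ⧸ P) (integralClosure ℤ L ⧸ Q) r) =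
      algebraMap (𝓞 E ⧸ P) (integralClosure ℤ L ⧸ Q) r := by
    intro r
    obtain ⟨x, rfl⟩ := Ideal.Quotient.mk_surjective r
    change Ideal.Quotient.mk Q (τ₁ • inclInt E x) = Ideal.Quotient.mk Q (inclInt E x)
    rw [hτ₁E, Ideal.Quotient.eq, ← map_sub, hPiff]
    exact hσ x
  let f : (integralClosure ℤ L ⧸ Q) ≃ₐ[𝓞 E ⧸ P] (integralClosure ℤ L ⧸ Q) :=
    AlgEquiv.ofRingEquiv (f := f₀) hf₀
  obtain ⟨⟨n, hnQ⟩, hn⟩ := Ideal.Quotient.stabilizerHom_surjective_of_profinite
    (G := L ≃ₐ[E] L) P Q f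
  have hn' : ∀ b : integralClosure ℤ L, n • b - τ₁ • b ∈ Q := fun b => by
    have h1 := congrArg (fun φ : (integralClosure ℤ L ⧸ Q) ≃ₐ[𝓞 E ⧸ P] (integralClosure ℤ L ⧸ Q) =>
      φ (Ideal.Quotient.mk Q b)) hn
    rw [← Ideal.Quotient.eq]
    exact h1
  refine ⟨(AlgEquiv.restrictScalars ℚ n)⁻¹ * τ₁, ?_, ?_⟩
  · apply mem_inertia_of_forall_sub
    intro z hz
    let z' : integralClosure ℤ L := ⟨z, hz⟩
    have h1 := hn' z'
    have h2 : n⁻¹ • (n • z' - τ₁ • z') ∈ Q := by
      have h3 : n⁻¹ • Q = Q := (inv_smul_eq_iff).mpr hnQ.symm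
      rw [← h3]
      exact Ideal.smul_mem_pointwise_smul _ _ _ h1
    rw [smul_sub, inv_smul_smul] at h2
    have h3 := Q.neg_mem h2
    rw [neg_sub, ← hA, mem_center] at h3
    exact h3
  · ext x
    have h1 : ((AlgEquiv.restrictNormal ((AlgEquiv.restrictScalars ℚ n)⁻¹ * τ₁) E x : E) : L) =
      ((AlgEquiv.restrictScalars ℚ n)⁻¹ * τ₁) (x : L) := AlgEquiv.restrictNormal_commutes _ E x
    rw [h1, AlgEquiv.mul_apply]
    have h2 : τ₁ (x : L) = ((σ x : E) : L) := by
      change g (τ₀ (x : L)) = _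
      rw [hτ₀']
      exact g.commutes _
    rw [h2]
    exact n.symm.commutes (σ x)

end

/-- **Minkowski's theorem** for places of `ℚ̄`: an open subgroup of the absolute Galois group
containing all inertia groups is everything. -/
theorem eq_top_of_inertia_le {L : Type*} [Field L] [CharZero L] [inst : Algebra ℚ L]
    [IsGalois ℚ L] (U : Subgroup (L ≃ₐ[ℚ] L)) (hU : IsOpen (U : Set (L ≃ₐ[ℚ] L)))
    (h : ∀ (q : ℕ), q.Prime → ∀ A : ValuationSubring L, A.LiesOverPrime q →
      A.inertiaSubgroupIn ℚ ≤ U) : U = ⊤ := by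
  obtain ⟨E, hfin, hnorm, hE⟩ := (krullTopology_mem_nhds_one_iff_of_normal ℚ L
    (U : Set (L ≃ₐ[ℚ] L))).mp (hU.mem_nhds (one_mem U))
  haveI := hfin
  haveI := hnorm
  haveI : Algebra.IsSeparable ℚ E := Algebra.IsAlgebraic.isSeparable_of_perfectField
  haveI : IsGalois ℚ E := ⟨⟩
  have h1 := eq_top_of_inertia_le_finite' (U.map (AlgEquiv.restrictNormalHom E)) (by
    intro P hP hP0 σ hσ
    -- the residue characteristic
    haveI : NumberField E := by
      have h2 : (E.algebra' : Algebra ℚ E) = DivisionRing.toRatAlgebra := Subsingleton.elim _ _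
      exact { to_charZero := inferInstance, to_finiteDimensional := h2 ▸ hfin }
    haveI : P.IsMaximal := hP.isMaximal hP0
    haveI : (P.under ℤ).IsPrime := inferInstance
    have hp0 : P.under ℤ ≠ ⊥ := fun h => hP0 (Ideal.eq_bot_of_comap_eq_bot h)
    obtain ⟨n, hn⟩ : (P.under ℤ).IsPrincipal := inferInstance
    have hnp : Prime n := by
      rw [← Ideal.span_singleton_prime, ← Ideal.submodule_span_eq, ← hn]
      · infer_instance
      · rintro rfl
        apply hp0
        rw [hn]; simp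
    have hq : n.natAbs.Prime := Int.prime_iff_natAbs_prime.mp hnp
    have hmem : ((n.natAbs : ℕ) : 𝓞 E) ∈ P := by
      have h3 : n ∈ P.under ℤ := by rw [hn]; exact Submodule.mem_span_singleton_self n
      have h4 : ((n.natAbs : ℕ) : ℤ) ∈ P.under ℤ := by
        rw [← Int.abs_eq_natAbs]
        rcases abs_choice n with h5 | h5
        · rw [h5]; exact h3
        · rw [h5]; exact neg_mem h3
      change algebraMap ℤ (𝓞 E) _ ∈ P at h4
      rwa [eq_intCast, Int.cast_natCast] at h4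
    obtain ⟨A, hA, τ, hτ, hτσ⟩ := exists_inertia_lift E P σ hσ hmem
    exact ⟨τ, h _ hq A hA hτ, hτσ⟩)
  rw [eq_top_iff]
  intro g _
  have h2 : AlgEquiv.restrictNormalHom E g ∈ U.map (AlgEquiv.restrictNormalHom E) := by
    rw [h1]; trivial
  obtain ⟨u, hu, hug⟩ := h2
  have h3 : u⁻¹ * g ∈ U := by
    apply hE
    rw [SetLike.mem_coe, IntermediateField.mem_fixingSubgroup_iff]
    intro x hx
    have h1 : ((AlgEquiv.restrictNormal u E ⟨x, hx⟩ : E) : L) = u x :=
      AlgEquiv.restrictNormal_commutes u E ⟨x, hx⟩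
    have h2 : ((AlgEquiv.restrictNormal g E ⟨x, hx⟩ : E) : L) = g x :=
      AlgEquiv.restrictNormal_commutes g E ⟨x, hx⟩
    have hug' : AlgEquiv.restrictNormal u E = AlgEquiv.restrictNormal g E := hug
    rw [AlgEquiv.mul_apply, ← h2, ← hug', h1]
    exact u.symm_apply_apply x
  have := U.mul_mem hu h3
  rwa [mul_inv_cancel_left] at this

end Fermat.Agent.Places
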