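import Fermat.Agent.Cheb.Frobenius
import Fermat.Agent.Places.Existence
import Fermat.Agent.Places.Frobenius
import Mathlib.NumberTheory.NumberField.ExistsRamified

/-!
# Minkowski's theorem: `ℚ` has no unramified extensions, in terms of places of `ℚ̄`.
-/

set_option autoImplicit false
set_option linter.unusedSectionVars false
set_option linter.style.haveILetI false

namespace Fermat.Agent.Places

open NumberField Ideal Fermat.Agent.Cheb

section finite

theorem perfect_residueField {R : Type*} [CommRing R] [Ring.HasFiniteQuotients R] (p : Ideal R)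
    [hp : p.IsPrime] (hp0 : p ≠ ⊥) : PerfectField p.ResidueField := by
  haveI : Finite (R ⧸ p) := Ring.HasFiniteQuotients.finiteQuotient hp0
  haveI : p.IsMaximal := Ring.HasFiniteQuotients.maximalOfPrime hp0
  letI : Field (R ⧸ p) := Ideal.Quotient.field _
  haveI : Finite p.ResidueField :=
    Finite.of_surjective _ (Ideal.bijective_algebraMap_quotient_residueField p).2
  infer_instance

variable {K : Type*} [Field K] [NumberField K] [IsGalois ℚ K]

/-- A subgroup of the Galois group of a number field containing all inertia groups is everything. -/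
theorem eq_top_of_inertia_le_finite (H : Subgroup Gal(K/ℚ))
    (hH : ∀ (P : Ideal (𝓞 K)), P.IsPrime → P ≠ ⊥ → P.inertia Gal(K/ℚ) ≤ H) : H = ⊤ := by
  by_contra hne
  have hrank : Module.finrank ℚ (FF K H) ≠ 1 := by
    intro h1
    apply hne
    have h2 : Nat.card H = Module.finrank (FF K H) K := (IsGaloisGroup.card_eq_finrank H (FF K H) K)
    have h3 : Nat.card Gal(K/ℚ) = Module.finrank ℚ K := IsGalois.card_aut_eq_finrank ℚ K
    have h4 := Module.finrank_mul_finrank ℚ (FF K H) K
    rw [h1, one_mul, ← h2, ← h3] at h4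
    exact Subgroup.eq_top_of_card_eq H h4
  obtain ⟨P', hP'max, hP'⟩ :=
    NumberField.exists_not_isUnramifiedAt_int (K := FF K H) (𝒪 := 𝓞 (FF K H)) hrank
  have hP'0 : P' ≠ ⊥ := Ring.ne_bot_of_isMaximal_of_not_isField hP'max
    (RingOfIntegers.not_isField (FF K H))
  obtain ⟨P, hPmax, hP⟩ := Ideal.exists_maximal_ideal_liesOver_of_isIntegral (S := 𝓞 K) P'
  haveI : P.IsPrime := hPmax.isPrime
  have hP0 : P ≠ ⊥ := Ideal.ne_bot_of_liesOver_of_ne_bot hP'0 P
  have hp0 : P.under ℤ ≠ ⊥ := fun h => hP0 (Ideal.eq_bot_of_comap_eq_bot h)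
  haveI := perfect_residueField (P.under ℤ) hp0
  haveI := perfect_residueField P' hP'0
  have e1 : Nat.card (P.inertia Gal(K/ℚ)) = P.ramificationIdx ℤ := by
    rw [card_inertia_eq_ramificationIdxIn (G := Gal(K/ℚ)) (P.under ℤ) P,
      Ideal.ramificationIdxIn_eq_ramificationIdx (P.under ℤ) P Gal(K/ℚ)]
  have e2 : Nat.card (P.inertia H) = P.ramificationIdx (𝓞 (FF K H)) := by
    rw [card_inertia_eq_ramificationIdxIn (G := H) P' P,
      Ideal.ramificationIdxIn_eq_ramificationIdx P' P H]
  have e3 : P.ramificationIdx ℤ = P'.ramificationIdx ℤ * P.ramificationIdx (𝓞 (FF K H)) :=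
    Ideal.ramificationIdx_tower P' P
  have e4 : Nat.card (P.inertia H) = Nat.card (P.inertia Gal(K/ℚ)) := by
    refine Nat.card_congr
      { toFun := fun σ => ⟨σ.1.1, ?_⟩
        invFun := fun σ => ⟨⟨σ.1, hH P inferInstance hP0 σ.2⟩, ?_⟩
        left_inv := fun _ => rfl
        right_inv := fun _ => rfl }
    · exact σ.2
    · exact σ.2
  have hpos : P.ramificationIdx (𝓞 (FF K H)) ≠ 0 := by
    rw [← e2]
    exact Nat.card_pos.ne'
  have e5 : P'.ramificationIdx ℤ = 1 := by
    rw [← e1, ← e2, e4, e1] at e3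
    have : P.ramificationIdx ℤ ≠ 0 := by
      rw [← e1]; exact Nat.card_pos.ne'
    exact (mul_eq_right₀ this).mp e3.symm
  exact hP' (Ideal.ramificationIdx_eq_one_iff.mp e5)

end finite

end Fermat.Agent.Places
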